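/-
U4b: points of the special curve lift, and values and vanishing orders reduce.
-/
import Fermat.Agent.MCurve.T27.Local
import Mathlib.RingTheory.Valuation.ValuationRing

set_option autoImplicit false
set_option linter.unusedSectionVars false
set_option linter.style.haveILetI false

noncomputable section

namespace Fermat.Agent.MCurve.T27

open AlgebraicCurve RR MW Polynomial
open scoped Classical

universe u v

theorem map_prod_X_sub_C {R S : Type*} [CommRing R] [CommRing S] (φ : R →+* S) (s : Multiset R) :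
    ((s.map fun r => Polynomial.X - C r).prod).map φ =
      ((s.map φ).map fun r => Polynomial.X - C r).prod := by
  simp [Polynomial.map_multiset_prod, Multiset.map_map]

/-- Monic polynomials over a valuation ring of an algebraically closed field split. -/
theorem exists_split {K : Type*} [Field K] [IsAlgClosed K] (V : ValuationSubring K) {p : V[X]}
    (hp : p.Monic) : ∃ s : Multiset V, p = (s.map fun r => Polynomial.X - C r).prod := by
  set q := p.map V.subtype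
  have hq : q.Monic := hp.map _
  have hr : ∀ r ∈ q.roots, r ∈ V := fun r hr => by
    have hint : IsIntegral V r := ⟨p, hp, by
      have := (mem_roots hq.ne_zero).mp hr
      rw [IsRoot, eval_map] at this
      exact this⟩
    obtain ⟨y, hy⟩ := IsIntegrallyClosed.isIntegral_iff.mp hint
    exact hy ▸ y.2
  refine ⟨q.roots.pmap Subtype.mk hr, map_injective V.subtype Subtype.val_injective ?_⟩
  rw [map_prod_X_sub_C, show (q.roots.pmap Subtype.mk hr).map V.subtype = q.roots by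
    rw [Multiset.map_pmap]; simp [Multiset.pmap_eq_map]]
  exact (IsAlgClosed.splits q).eq_prod_roots_of_monic hq

/-- Newton's approximation at a simple root over a ring. -/
theorem exists_root_mod_pow_unit {R : Type*} [CommRing R] {P : R[X][X]} {c w₀ : R}
    (hroot : P.evalEval c w₀ = 0) (hd : IsUnit (P.derivative.evalEval c w₀)) (n : ℕ) :
    ∃ r : R[X], r.eval c = w₀ ∧ (Polynomial.X - C c) ^ n ∣ P.eval r := by
  induction n with
  | zero => exact ⟨C w₀, eval_C, by simp⟩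
  | succ n ih =>
    obtain ⟨r, hr, q, hq⟩ := ih
    rcases Nat.eq_zero_or_pos n with rfl | hn
    · refine ⟨C w₀, eval_C, ?_⟩
      rw [pow_one, dvd_iff_isRoot, IsRoot]
      exact hroot
    have he : (P.derivative.eval r).eval c = P.derivative.evalEval c w₀ := by
      obtain ⟨z, hz⟩ := sub_dvd_eval_sub r (C w₀) P.derivative
      have h2 := congrArg (Polynomial.eval c) hz
      rw [eval_sub, eval_mul, eval_sub, hr, eval_C, sub_self, zero_mul, sub_eq_zero] at h2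
      exact h2
    obtain ⟨i, hi⟩ := hd.exists_left_inv
    set a := -q.eval c * i
    refine ⟨r + C a * (Polynomial.X - C c) ^ n, by simp [hr, hn.ne'], ?_⟩
    obtain ⟨k, hk⟩ := Polynomial.binomExpansion P r (C a * (Polynomial.X - C c) ^ n)
    rw [hk, hq]
    have h1 : (Polynomial.X - C c) ^ (n + 1) ∣
        (Polynomial.X - C c) ^ n * (q + P.derivative.eval r * C a) := by
      rw [pow_succ]
      refine mul_dvd_mul_left _ (dvd_iff_isRoot.mpr ?_)
      simp only [IsRoot, eval_add, eval_mul, eval_C, a, he]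
      linear_combination -(q.eval c) * hi
    have h2 : (Polynomial.X - C c) ^ (n + 1) ∣ k * (C a * (Polynomial.X - C c) ^ n) ^ 2 := by
      rw [mul_pow, ← pow_mul]
      exact dvd_mul_of_dvd_right (dvd_mul_of_dvd_right (pow_dvd_pow _ (by omega)) _) _
    refine (dvd_add h1 h2).trans (dvd_of_eq ?_)
    ring

variable {K : Type u} {F : Type v} [Field K] [Field F] [Algebra K F] [IsAlgClosed K]
  [∀ v : Place K F, v.FiniteResidue] [HasPrincipalDivisors K F] [Nonempty (Place K F)]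
  {k G : Type*} [Field k] [Field G] [Algebra k G] [IsAlgClosed k]
  [∀ v : Place k G, v.FiniteResidue] [HasPrincipalDivisors k G] [Nonempty (Place k G)]
  {X : Setup K F} {Co : Coordinate X} {Y : Setup k G} {Cy : Coordinate Y}
  (Mo : Model X Co Y Cy)

/-- Integral constants. -/
def Model.constA : Mo.V →+* Mo.A :=
  ((algebraMap K F).comp Mo.V.subtype).codRestrict Mo.A Mo.const_mem

/-- Integral polynomials in the coordinate. -/
def Model.evA : Mo.V[X] →+* Mo.A := eval₂RingHom Mo.constA ⟨X.f, Mo.f_mem⟩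

/-- Integral polynomials in both coordinates. -/
def Model.ev2A : Mo.V[X][X] →+* Mo.A := eval₂RingHom Mo.evA ⟨Co.w, Mo.w_mem⟩

theorem Model.coe_evA (p : Mo.V[X]) : (Mo.evA p : F) = aeval X.f (p.map Mo.V.subtype) := by
  rw [aeval_def, eval₂_map]
  exact hom_eval₂ p Mo.constA Mo.A.subtype _

theorem Model.red_constA (x : Mo.V) : Mo.red (Mo.constA x) = algebraMap k G (Mo.res x) :=
  Mo.red_const x

theorem Model.red_evA (p : Mo.V[X]) : Mo.red (Mo.evA p) = aeval Y.f (p.map Mo.res) := by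
  rw [aeval_def, eval₂_map]
  refine (hom_eval₂ p Mo.constA Mo.red _).trans ?_
  rw [Mo.red_f, show Mo.red.comp Mo.constA = (algebraMap k G).comp Mo.res from
    RingHom.ext Mo.red_constA]

theorem Model.coe_ev2A (H : Mo.V[X][X]) :
    (Mo.ev2A H : F) = ev2 X.f Co.w (H.map (mapRingHom Mo.V.subtype)) := by
  rw [ev2, eval₂_map]
  refine (hom_eval₂ H Mo.evA Mo.A.subtype _).trans ?_
  rw [show Mo.A.subtype.comp Mo.evA = (aeval X.f).toRingHom.comp (mapRingHom Mo.V.subtype) from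
    RingHom.ext Mo.coe_evA]
  rfl

theorem Model.red_ev2A (H : Mo.V[X][X]) :
    Mo.red (Mo.ev2A H) = ev2 Y.f Cy.w (H.map (mapRingHom Mo.res)) := by
  rw [ev2, eval₂_map]
  refine (hom_eval₂ H Mo.evA Mo.red _).trans ?_
  rw [Mo.red_w, show Mo.red.comp Mo.evA = (aeval Y.f).toRingHom.comp (mapRingHom Mo.res) from
    RingHom.ext Mo.red_evA]

theorem Model.coe_clear {N : ℕ} {a : Mo.A} {H : Mo.V[X][X]}
    (h : Mo.evA (Mo.Δ ^ N) * a = Mo.ev2A H) :
    aeval X.f (Co.Δ ^ N) * (a : F) = ev2 X.f Co.w (H.map (mapRingHom Mo.V.subtype)) := by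
  rw [← Mo.coe_ev2A, ← h, Subring.coe_mul, Mo.coe_evA, Polynomial.map_pow, Mo.Δ_eq]

theorem Model.red_clear {N : ℕ} {a : Mo.A} {H : Mo.V[X][X]}
    (h : Mo.evA (Mo.Δ ^ N) * a = Mo.ev2A H) :
    aeval Y.f (Cy.Δ ^ N) * Mo.red a = ev2 Y.f Cy.w (H.map (mapRingHom Mo.res)) := by
  rw [← Mo.red_ev2A, ← h, map_mul Mo.red, Mo.red_evA, Polynomial.map_pow, Mo.Δ_res]

theorem Model.exists_clear (a : Mo.A) : ∃ (N : ℕ) (H : Mo.V[X][X]),
    Mo.evA (Mo.Δ ^ N) * a = Mo.ev2A H := by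
  obtain ⟨N, H, h⟩ := Mo.clear a
  refine ⟨N, H, Subtype.ext ?_⟩
  rw [Subring.coe_mul, Mo.coe_evA, Polynomial.map_pow, Mo.Δ_eq, Mo.coe_ev2A, h]

theorem Model.exists_clear_common {ι : Type*} [Fintype ι] (a : ι → Mo.A) :
    ∃ (N : ℕ) (H : ι → Mo.V[X][X]), ∀ i, Mo.evA (Mo.Δ ^ N) * a i = Mo.ev2A (H i) := by
  choose N H hH using fun i => Mo.exists_clear (a i)
  refine ⟨Finset.univ.sup N, fun i => C (Mo.Δ ^ (Finset.univ.sup N - N i)) * H i, fun i => ?_⟩
  rw [map_mul Mo.ev2A, ← hH i, ← mul_assoc]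
  refine congrArg (· * a i) ?_
  rw [show Mo.ev2A (C (Mo.Δ ^ (Finset.univ.sup N - N i))) =
      Mo.evA (Mo.Δ ^ (Finset.univ.sup N - N i)) from eval₂_C _ _, ← map_mul, ← pow_add,
    Nat.sub_add_cancel (Finset.le_sup (Finset.mem_univ i))]

theorem Model.isUnit_of_res_ne_zero {x : Mo.V} (h : Mo.res x ≠ 0) : IsUnit x :=
  IsLocalRing.notMem_maximalIdeal.mp fun hm => h ((Mo.res_eq_zero_iff x).mpr hm)

/-- A point of the generic curve reduces to a point of the special one. -/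
def Model.Lifts (P' : X.Pt) (P : Y.Pt) : Prop :=
  ∃ c w : Mo.V, valAt P'.1 X.f = c ∧ valAt P'.1 Co.w = w ∧
    Mo.res c = valAt P.1 Y.f ∧ Mo.res w = valAt P.1 Cy.w

variable {Mo}

theorem Model.Lifts.unique {P' : X.Pt} {P P₂ : Y.Pt} (h : Mo.Lifts P' P) (h₂ : Mo.Lifts P' P₂)
    (hP : Cy.Δ.eval (valAt P.1 Y.f) ≠ 0) : P = P₂ := by
  obtain ⟨c, w, hc, hw, hc', hw'⟩ := h
  obtain ⟨c₂, w₂, hc₂, hw₂, hc₂', hw₂'⟩ := h₂
  obtain rfl : c = c₂ := Subtype.ext (hc.symm.trans hc₂)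
  obtain rfl : w = w₂ := Subtype.ext (hw.symm.trans hw₂)
  exact Cy.pt_ext hP (hc'.symm.trans hc₂') (hw'.symm.trans hw₂')

theorem Model.Lifts.good {P' : X.Pt} {P : Y.Pt} (h : Mo.Lifts P' P)
    (hP : Cy.Δ.eval (valAt P.1 Y.f) ≠ 0) : Co.Δ.eval (valAt P'.1 X.f) ≠ 0 := by
  obtain ⟨c, w, hc, -, hc', -⟩ := h
  rw [hc, ← Mo.Δ_eq]
  intro h0
  refine hP ?_
  have h1 : Mo.Δ.eval c = 0 := Subtype.ext ((eval_map_apply Mo.V.subtype c).symm.trans h0)
  rw [← hc', ← Mo.Δ_res, eval_map_apply, h1, map_zero]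

variable (Mo)

theorem Model.P_monic : Mo.P.Monic :=
  Polynomial.monic_of_injective (f := mapRingHom Mo.V.subtype)
    (map_injective _ Subtype.val_injective) (Mo.P_eq ▸ Co.monic)

theorem Model.fibre_map {S : Type*} [CommRing S] (φ : Mo.V →+* S) (c : Mo.V) :
    (Mo.P.map (evalRingHom c)).map φ = (Mo.P.map (mapRingHom φ)).map (evalRingHom (φ c)) := by
  rw [Polynomial.map_map, Polynomial.map_map]
  exact congrArg (fun h => Mo.P.map h) (RingHom.ext fun p => (eval_map_apply φ c).symm)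

/-- A good point lifts, with any lift of the value of the coordinate. -/
theorem Model.exists_lifts {P : Y.Pt} (hP : Cy.Δ.eval (valAt P.1 Y.f) ≠ 0) {c : Mo.V}
    (hc : Mo.res c = valAt P.1 Y.f) :
    ∃ P' : X.Pt, Mo.Lifts P' P ∧ valAt P'.1 X.f = c := by
  obtain ⟨s, hs⟩ := exists_split Mo.V (Mo.P_monic.map (evalRingHom c))
  have hroot := Cy.isRoot P
  rw [← hc, ← Mo.P_res, ← Mo.fibre_map, hs, map_prod_X_sub_C, ← mem_roots
    (monic_multisetProd_X_sub_C _).ne_zero, roots_multiset_prod_X_sub_C, Multiset.mem_map] at hroot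
  obtain ⟨w, hw, hw'⟩ := hroot
  have hΔ : Co.Δ.eval (c : K) ≠ 0 := by
    rw [← Mo.Δ_eq]
    intro h0
    have h1 : Mo.Δ.eval c = 0 := Subtype.ext ((eval_map_apply Mo.V.subtype c).symm.trans h0)
    exact hP (by rw [← hc, ← Mo.Δ_res, eval_map_apply, h1, map_zero])
  obtain ⟨P', hf, hw''⟩ := Co.exists_pt (w₀ := (w : K)) hΔ (by
    rw [← Mo.P_eq, show evalRingHom (c : K) = evalRingHom (Mo.V.subtype c) from rfl,
      ← Mo.fibre_map, hs, map_prod_X_sub_C, ← mem_roots (monic_multisetProd_X_sub_C _).ne_zero,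
      roots_multiset_prod_X_sub_C]
    exact Multiset.mem_map_of_mem Mo.V.subtype hw)
  exact ⟨P', ⟨c, w, hf, hw'', hc, hw'⟩, hf⟩

theorem Model.exists_mem_L (a : Mo.A) : ∃ n, (a : F) ∈ X.L n ∧ Mo.red a ∈ Y.L n :=
  (Mo.mem_L _ a.2).imp fun n hn => ⟨hn, Mo.red_L n a hn⟩

variable {Mo}

/-- The clearing identity at the two points. -/
theorem Model.eval_clear {P' : X.Pt} {c w : Mo.V} (hc : valAt P'.1 X.f = c)
    (hw : valAt P'.1 Co.w = w) {N : ℕ} {a : Mo.A} {H : Mo.V[X][X]}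
    (h : Mo.evA (Mo.Δ ^ N) * a = Mo.ev2A H) :
    ((Mo.Δ.eval c : Mo.V) : K) ^ N * valAt P'.1 (a : F) = (H.evalEval c w : Mo.V) := by
  obtain ⟨n, hn, -⟩ := Mo.exists_mem_L a
  have h1 := congrArg (valAt P'.1) (Mo.coe_clear h)
  rw [valAt_mul (Coordinate.valAt_aeval_f P' _).1 (Setup.mem_ring hn P'.2),
    (Coordinate.valAt_aeval_f P' _).2, eval_pow, (Co.valAt_ev2 P' _).2, hc, hw] at h1
  rw [← Mo.Δ_eq] at h1
  exact (congrArg (fun x => x ^ N * valAt P'.1 (a : F))
    (eval_map_apply Mo.V.subtype c).symm).trans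
    (h1.trans (map_mapRingHom_evalEval Mo.V.subtype H c w))

/-- Values reduce. -/
theorem Model.Lifts.exists_valAt {P' : X.Pt} {P : Y.Pt} (h : Mo.Lifts P' P)
    (hP : Cy.Δ.eval (valAt P.1 Y.f) ≠ 0) (a : Mo.A) :
    ∃ x : Mo.V, valAt P'.1 (a : F) = x ∧ Mo.res x = valAt P.1 (Mo.red a) := by
  obtain ⟨c, w, hc, hw, hc', hw'⟩ := h
  obtain ⟨N, H, hH⟩ := Mo.exists_clear a
  obtain ⟨n, -, hn⟩ := Mo.exists_mem_L a
  have hΔ : Mo.res (Mo.Δ.eval c) ≠ 0 := by rwa [← eval_map_apply, Mo.Δ_res, hc']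
  obtain ⟨i, hi⟩ := ((Mo.isUnit_of_res_ne_zero hΔ).pow N).exists_left_inv
  have h1 := Model.eval_clear hc hw hH
  refine ⟨i * H.evalEval c w, ?_, ?_⟩
  · have hi' : (i : K) * ((Mo.Δ.eval c : Mo.V) : K) ^ N = 1 :=
      (by simpa using congrArg Mo.V.subtype hi)
    push_cast
    rw [← h1, ← mul_assoc, hi', one_mul]
  · have h2 := congrArg (valAt P.1) (Mo.red_clear hH)
    rw [valAt_mul (Coordinate.valAt_aeval_f P _).1 (Setup.mem_ring hn P.2),
      (Coordinate.valAt_aeval_f P _).2, eval_pow, (Cy.valAt_ev2 P _).2, ← hc', ← hw', ← Mo.Δ_res,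
      eval_map_apply, map_mapRingHom_evalEval] at h2
    rw [map_mul, ← h2, ← mul_assoc, ← map_pow, ← map_mul, hi, map_one, one_mul]

theorem Model.Lifts.res_derivative {P' : X.Pt} {P : Y.Pt} {c w : Mo.V}
    (hc : valAt P'.1 X.f = c) (hw : valAt P'.1 Co.w = w) (hc' : Mo.res c = valAt P.1 Y.f)
    (hw' : Mo.res w = valAt P.1 Cy.w) (hP : Cy.Δ.eval (valAt P.1 Y.f) ≠ 0) :
    Mo.P.evalEval c w = 0 ∧ Mo.res (Mo.P.derivative.evalEval c w) ≠ 0 := by
  constructor
  · refine Subtype.ext ((map_mapRingHom_evalEval Mo.V.subtype Mo.P c w).symm.trans ?_)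
    rw [Mo.P_eq]
    have := Co.isRoot P'
    rwa [hc, hw, IsRoot, map_evalRingHom_eval] at this
  · have := (Cy.sep _ hP).eval₂_derivative_ne_zero (RingHom.id k)
      (show eval₂ (RingHom.id k) (valAt P.1 Cy.w) (Cy.P.map (evalRingHom (valAt P.1 Y.f))) = 0 from
        Cy.isRoot P)
    rwa [eval₂_id, derivative_map, map_evalRingHom_eval, ← Mo.P_res, derivative_map, ← hc', ← hw',
      map_mapRingHom_evalEval] at this

/-- The order at a lift, over the valuation ring. -/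
theorem Model.Lifts.le_ord_iff {P' : X.Pt} {P : Y.Pt} (h : Mo.Lifts P' P)
    (hP : Cy.Δ.eval (valAt P.1 Y.f) ≠ 0) {c : Mo.V} (hc : valAt P'.1 X.f = c) {r : Mo.V[X]}
    (hr : valAt P'.1 Co.w = r.eval c) {N n : ℕ} {a : Mo.A} {H : Mo.V[X][X]}
    (hH : Mo.evA (Mo.Δ ^ N) * a = Mo.ev2A H) (hrP : (Polynomial.X - C c) ^ n ∣ Mo.P.eval r) :
    (((a : F) = 0 ∨ (n : ℤ) ≤ P'.1.ord (a : F)) ↔ (Polynomial.X - C c) ^ n ∣ H.eval r) ∧
      ((Mo.red a = 0 ∨ (n : ℤ) ≤ P.1.ord (Mo.red a)) ↔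
        ((Polynomial.X - C c) ^ n).map Mo.res ∣ (H.eval r).map Mo.res) := by
  have hgood := h.good hP
  obtain ⟨c₂, w, hc₂, hw, hc', hw'⟩ := h
  obtain rfl : c = c₂ := Subtype.ext (hc.symm.trans hc₂)
  obtain rfl : r.eval c = w := Subtype.ext (hr.symm.trans hw)
  have hdvd : ∀ (φ : Mo.V →+* K), (Polynomial.X - C (φ c)) ^ n ∣ (Mo.P.map (mapRingHom φ)).eval
      (r.map φ) := fun φ => by
    rw [show (Mo.P.map (mapRingHom φ)).eval (r.map φ) = (Mo.P.eval r).map φ from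
      eval_map_apply (mapRingHom φ) r]
    simpa using Polynomial.map_dvd φ hrP
  have hdvd' : (Polynomial.X - C (Mo.res c)) ^ n ∣ (Mo.P.map (mapRingHom Mo.res)).eval
      (r.map Mo.res) := by
    rw [show (Mo.P.map (mapRingHom Mo.res)).eval (r.map Mo.res) = (Mo.P.eval r).map Mo.res from
      eval_map_apply (mapRingHom Mo.res) r]
    simpa using Polynomial.map_dvd Mo.res hrP
  constructor
  · have h1 := Co.le_ord_iff hgood (Mo.coe_clear hH) (r := r.map Mo.V.subtype) (n := n)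
      (by rw [hc, hw]; exact eval_map_apply Mo.V.subtype c)
      (by rw [hc, ← Mo.P_eq]; exact hdvd Mo.V.subtype)
    rw [h1, hc, show (H.map (mapRingHom Mo.V.subtype)).eval (r.map Mo.V.subtype) =
      (H.eval r).map Mo.V.subtype from eval_map_apply (mapRingHom Mo.V.subtype) r,
      show (Polynomial.X - C ((c : Mo.V) : K)) ^ n =
        ((Polynomial.X - C c) ^ n).map Mo.V.subtype by simp]
    exact map_dvd_map _ Subtype.val_injective ((monic_X_sub_C _).pow n)
  · have h1 := Cy.le_ord_iff hP (Mo.red_clear hH) (r := r.map Mo.res) (n := n)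
      (by rw [← hc', ← hw']; exact eval_map_apply Mo.res c)
      (by rw [← hc', ← Mo.P_res]; exact hdvd')
    rw [h1, ← hc', show (H.map (mapRingHom Mo.res)).eval (r.map Mo.res) =
      (H.eval r).map Mo.res from eval_map_apply (mapRingHom Mo.res) r,
      show (Polynomial.X - C (Mo.res c)) ^ n = ((Polynomial.X - C c) ^ n).map Mo.res by simp]

theorem Model.Lifts.exists_interp {P' : X.Pt} {P : Y.Pt} (h : Mo.Lifts P' P)
    (hP : Cy.Δ.eval (valAt P.1 Y.f) ≠ 0) (n : ℕ) : ∃ (c : Mo.V) (r : Mo.V[X]),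
      valAt P'.1 X.f = c ∧ valAt P'.1 Co.w = r.eval c ∧
        (Polynomial.X - C c) ^ n ∣ Mo.P.eval r := by
  obtain ⟨c, w, hc, hw, hc', hw'⟩ := h
  obtain ⟨h0, h1⟩ := Model.Lifts.res_derivative hc hw hc' hw' hP
  obtain ⟨r, hr, hrP⟩ := exists_root_mod_pow_unit h0 (Mo.isUnit_of_res_ne_zero h1) n
  exact ⟨c, r, hc, by rw [hr, hw], hrP⟩

/-- Vanishing orders do not drop under reduction. -/
theorem Model.Lifts.le_ord_red {P' : X.Pt} {P : Y.Pt} (h : Mo.Lifts P' P)
    (hP : Cy.Δ.eval (valAt P.1 Y.f) ≠ 0) {n : ℕ} {a : Mo.A}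
    (ha : (a : F) = 0 ∨ (n : ℤ) ≤ P'.1.ord (a : F)) :
    Mo.red a = 0 ∨ (n : ℤ) ≤ P.1.ord (Mo.red a) := by
  obtain ⟨c, r, hc, hr, hrP⟩ := h.exists_interp hP n
  obtain ⟨N, H, hH⟩ := Mo.exists_clear a
  obtain ⟨h1, h2⟩ := h.le_ord_iff hP hc hr hH hrP
  exact h2.mpr (Polynomial.map_dvd _ (h1.mp ha))

/-- In a residue disc a function of sharp order vanishes at its centre only. -/
theorem Model.Lifts.eq_or_ord_eq_zero {Pa P' : X.Pt} {P : Y.Pt} (h : Mo.Lifts Pa P)
    (h' : Mo.Lifts P' P) (hP : Cy.Δ.eval (valAt P.1 Y.f) ≠ 0) {n : ℕ} {a : Mo.A}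
    (ha : (a : F) = 0 ∨ (n : ℤ) ≤ Pa.1.ord (a : F))
    (hsharp : ¬(Mo.red a = 0 ∨ ((n + 1 : ℕ) : ℤ) ≤ P.1.ord (Mo.red a))) :
    P' = Pa ∨ P'.1.ord (a : F) = 0 := by
  obtain ⟨c, r, hc, hr, hrP⟩ := h.exists_interp hP (n + 1)
  obtain ⟨N, H, hH⟩ := Mo.exists_clear a
  have hn : (Polynomial.X - C c) ^ n ∣ H.eval r :=
    (h.le_ord_iff hP hc hr hH ((pow_dvd_pow _ (Nat.le_succ n)).trans hrP)).1.mp ha
  obtain ⟨hq, hhq⟩ := hn
  obtain ⟨q, hPq⟩ := hrP
  have hres_h : Mo.res (hq.eval c) ≠ 0 := fun e => hsharp (by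
    refine (h.le_ord_iff hP hc hr hH ⟨q, hPq⟩).2.mpr ?_
    rw [hhq, Polynomial.map_mul, Polynomial.map_pow, Polynomial.map_pow, pow_succ]
    refine mul_dvd_mul_left _ ?_
    rw [Polynomial.map_sub, map_X, map_C, dvd_iff_isRoot, IsRoot, eval_map_apply, e])
  obtain ⟨c₀, w₀, hc₀, hw₀, hc₀', hw₀'⟩ := h
  obtain rfl : c = c₀ := Subtype.ext (hc.symm.trans hc₀)
  obtain rfl : r.eval c = w₀ := Subtype.ext (hr.symm.trans hw₀)
  obtain ⟨c', w', hc', hw', hcr, hwr⟩ := h'
  obtain ⟨-, hd⟩ := Model.Lifts.res_derivative hc hr hc₀' hw₀' hP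
  have h0 := (Model.Lifts.res_derivative hc' hw' hcr hwr hP).1
  obtain ⟨S, hS⟩ := Polynomial.X_sub_C_dvd_sub_C_eval (p := Mo.P) (a := r)
  obtain ⟨R, hR⟩ := Polynomial.X_sub_C_dvd_sub_C_eval (p := H) (a := r)
  have hδ : Mo.res (c' - c) = 0 := by rw [map_sub, hcr, hc₀', sub_self]
  have hSc : Mo.res (S.evalEval c' w') ≠ 0 := by
    have e1 : Mo.P.derivative.evalEval c (r.eval c) = S.evalEval c (r.eval c) := by
      rw [sub_eq_iff_eq_add.mp hS]; simp [evalEval]
    rw [e1] at hd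
    rwa [← map_mapRingHom_evalEval, hcr, hwr, ← hc₀', ← hw₀', map_mapRingHom_evalEval]
  have e2 : (w' - r.eval c') * S.evalEval c' w' = -((c' - c) ^ (n + 1) * q.eval c') := by
    have := congrArg (evalEval c' w') hS
    simp [evalEval, hPq] at this
    rw [show eval c' (eval (C w') Mo.P) = 0 from h0] at this
    simp only [evalEval] at *
    linear_combination -this
  have e3 : H.evalEval c' w' * S.evalEval c' w' = (c' - c) ^ n *
      (hq.eval c' * S.evalEval c' w' - (c' - c) * q.eval c' * R.evalEval c' w') := by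
    have := congrArg (evalEval c' w') hR
    simp [evalEval, hhq] at this
    simp only [evalEval] at *
    linear_combination S.evalEval c' w' * this + R.evalEval c' w' * e2
  have hbr : Mo.res (hq.eval c' * S.evalEval c' w' - (c' - c) * q.eval c' * R.evalEval c' w') ≠
      0 := by
    rw [map_sub, map_mul, map_mul _ ((c' - c) * q.eval c'), map_mul _ (c' - c), hδ, zero_mul,
      zero_mul, sub_zero]
    refine mul_ne_zero ?_ hSc
    rwa [← eval_map_apply, hcr, ← hc₀', eval_map_apply]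
  rcases eq_or_ne c' c with rfl | hne
  · refine Or.inl (Co.pt_ext ?_ (hc'.trans hc.symm) ?_)
    · exact Model.Lifts.good ⟨_, _, hc', hw', hcr, hwr⟩ hP
    · rw [sub_self, zero_pow n.succ_ne_zero, zero_mul, neg_zero] at e2
      have h1 : w' - r.eval c' = 0 :=
        (mul_eq_zero.mp e2).resolve_right fun e => hSc (by rw [e, map_zero])
      rw [hw', hr, sub_eq_zero.mp h1]
  · refine Or.inr (ord_eq_zero_of_valAt ?_ fun hv => ?_).2
    · obtain ⟨m, hm, -⟩ := Mo.exists_mem_L a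
      exact Setup.mem_ring hm P'.2
    have h1 := Model.eval_clear hc' hw' hH
    rw [hv, mul_zero] at h1
    rw [show H.evalEval c' w' = 0 from Subtype.ext h1.symm, zero_mul] at e3
    rcases mul_eq_zero.mp e3.symm with e | e
    · exact sub_ne_zero.mpr hne (pow_eq_zero_iff'.mp e).1
    · exact hbr (by rw [e, map_zero])

end Fermat.Agent.MCurve.T27
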