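/-
U4c: subspaces of the generic curve reduce to subspaces of the same dimension, and the spaces
attached to a tuple lift.
-/
import Fermat.Agent.MCurve.T27.Lift.Points

set_option autoImplicit false
set_option linter.unusedSectionVars false
set_option linter.style.haveILetI false

noncomputable section

namespace Fermat.Agent.MCurve.T27

open AlgebraicCurve RR MW Polynomial
open scoped Classical

universe u v

section Curve

variable {K F : Type*} [Field K] [Field F] [Algebra K F] [IsAlgClosed K]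
  [∀ v : Place K F, v.FiniteResidue] [HasPrincipalDivisors K F] [Nonempty (Place K F)]
  (X : Setup K F)

/-- Evaluation at an affine point. -/
def evalL (N : ℕ) (P : X.Pt) : X.L N →ₗ[K] K where
  toFun a := valAt P.1 (a : F)
  map_add' a b := valAt_add (Setup.mem_ring a.2 P.2) (Setup.mem_ring b.2 P.2)
  map_smul' x a := valAt_smul x (Setup.mem_ring a.2 P.2)

variable {X}

theorem exists_good_point (Co : Coordinate X) {N : ℕ} {u : F} (hu : u ∈ X.L N) (hu0 : u ≠ 0) :
    ∃ P : X.Pt, Co.Δ.eval (valAt P.1 X.f) ≠ 0 ∧ valAt P.1 u ≠ 0 := by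
  haveI := X.infinite_Pt
  obtain ⟨P, hP⟩ := ((X.finite_zeros hu0).union
    (X.finite_zeros (aeval_f_ne_zero Co.Δ_ne))).exists_notMem
  simp only [Set.mem_union, Set.mem_ofPred_eq, not_or] at hP
  refine ⟨P, fun h => hP.2 ?_, fun h => hP.1 ((valAt_eq_zero_iff (Setup.mem_ring hu P.2)).mp h)⟩
  refine (valAt_eq_zero_iff (Coordinate.valAt_aeval_f P _).1).mp ?_
  rw [(Coordinate.valAt_aeval_f P _).2, h]

/-- Evaluations at `s` good points separate a space of dimension `s`. -/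
theorem exists_separating (Co : Coordinate X) {N : ℕ} : ∀ (s : ℕ) (I : Submodule K F), I ≤ X.L N →
    Module.finrank K I ≤ s → ∃ P : Fin s → X.Pt, (∀ j, Co.Δ.eval (valAt (P j).1 X.f) ≠ 0) ∧
      ∀ u ∈ I, (∀ j, valAt (P j).1 u = 0) → u = 0 := by
  intro s
  induction s with
  | zero =>
    intro I hI hs
    haveI : Module.Finite K I := Submodule.finiteDimensional_of_le hI
    have : I = ⊥ := Submodule.finrank_eq_zero.mp (Nat.le_zero.mp hs)
    exact ⟨fun j => j.elim0, fun j => j.elim0, fun u hu _ => by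
      rwa [this, Submodule.mem_bot] at hu⟩
  | succ s ih =>
    intro I hI hs
    haveI : Module.Finite K I := Submodule.finiteDimensional_of_le hI
    rcases eq_or_ne I ⊥ with rfl | hne
    · obtain ⟨P, hP, -⟩ := exists_good_point Co (X.one_mem_L N) one_ne_zero
      exact ⟨fun _ => P, fun _ => hP, fun u hu _ => (Submodule.mem_bot K).mp hu⟩
    obtain ⟨u, hu, hu0⟩ := Submodule.exists_mem_ne_zero_of_ne_bot hne
    obtain ⟨P, hP, hPu⟩ := exists_good_point Co (hI hu) hu0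
    set I' := I ⊓ (LinearMap.ker (evalL X N P)).map (X.L N).subtype
    have hlt : I' < I := lt_of_le_of_ne inf_le_left fun e => by
      rw [← e] at hu
      obtain ⟨-, ⟨x, hx, rfl⟩⟩ := hu
      exact hPu hx
    obtain ⟨Ps, hPs, hsep⟩ := ih I' (inf_le_left.trans hI)
      (by have := Submodule.finrank_lt_finrank_of_lt hlt; omega)
    refine ⟨Fin.cons P Ps, Fin.cases hP hPs, fun u hu h => hsep u ⟨hu, ⟨u, hI hu⟩, ?_, rfl⟩
      fun j => by simpa using h j.succ⟩
    simpa [evalL] using h 0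

/-- A section with the exact order at finitely many places. -/
theorem exists_ord_eq_finset {D : Divisor K F} (hD : (X.c : ℤ) + 1 ≤ Divisor.degree D)
    (Z : Finset (Place K F)) (hZ : Z.Nonempty) :
    ∃ t ∈ riemannRochSpace D, t ≠ 0 ∧ ∀ v ∈ Z, v.ord t = -D v := by
  obtain ⟨t, ht⟩ : ∃ t : riemannRochSpace D, ∀ v ∈ Z,
      (t : F) ∉ riemannRochSpace (D - Finsupp.single v 1) := by
    by_contra hne
    push Not at hne
    obtain ⟨v, hv⟩ := Subspace.exists_eq_top_of_iUnion_eq_univ (k := K)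
      (p := fun v : Z => (riemannRochSpace (D - Finsupp.single v.1 1)).comap
        (riemannRochSpace D).subtype) (Set.eq_univ_of_forall fun t => by
          obtain ⟨v, hv, htv⟩ := hne t
          exact Set.mem_iUnion.mpr ⟨⟨v, hv⟩, htv⟩)
    obtain ⟨f, hf, hf0, hfv⟩ := X.hR.exists_ord_eq hD v.1
    have hf' : f ∈ riemannRochSpace (D - Finsupp.single v.1 1) :=
      (show (⟨f, hf⟩ : riemannRochSpace D) ∈ _ from hv.symm ▸ Submodule.mem_top)
    have := ((mem_space_iff.mp hf').resolve_left hf0) v.1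
    rw [Finsupp.sub_apply, Finsupp.single_eq_same] at this
    omega
  obtain ⟨v₀, hv₀⟩ := hZ
  have ht0 : (t : F) ≠ 0 := fun h => ht v₀ hv₀ (h ▸ zero_mem _)
  refine ⟨t, t.2, ht0, fun v hv => ?_⟩
  by_contra htv
  refine ht v hv (mem_space_iff.mpr (Or.inr fun w => ?_))
  have := ((mem_space_iff.mp t.2).resolve_left ht0) w
  rw [Finsupp.sub_apply, Finsupp.single_apply]
  split_ifs with h
  · subst h; omega
  · omega

theorem ord_finsetProd (v : Place K F) {ι : Type*} (s : Finset ι) (a : ι → F)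
    (ha : ∀ i ∈ s, a i ≠ 0) : v.ord (∏ i ∈ s, a i) = ∑ i ∈ s, v.ord (a i) := by
  induction s using Finset.induction_on with
  | empty => simp [v.ord_one]
  | @insert i s hi ih =>
    rw [Finset.prod_insert hi, Finset.sum_insert hi, v.ord_mul (ha i (Finset.mem_insert_self _ _))
      (Finset.prod_ne_zero_iff.mpr fun j hj => ha j (Finset.mem_insert_of_mem hj)),
      ih fun j hj => ha j (Finset.mem_insert_of_mem hj)]

theorem ord_f_sub_inf (c : K) : X.inf.ord (X.f - algebraMap K F c) = -((X.c : ℤ) + 1) := by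
  rcases eq_or_ne c 0 with rfl | hc0
  · simp only [map_zero, sub_zero]; exact X.f_inf
  have hf0 : X.f ≠ 0 := fun e => X.f_fin.transcendental (by rw [e]; exact isAlgebraic_zero)
  have := ord_add_eq X.inf hf0 (neg_ne_zero.mpr (by simpa using hc0 : algebraMap K F c ≠ 0))
    (by rw [X.f_inf, MCurve.ord_neg, MCurve.ord_algebraMap]; omega)
  rwa [← sub_eq_add_neg, X.f_inf] at this

variable (X)

/-- The polynomial of the values of the coordinate on a tuple. -/
def chiT (Q : X.Tup) : K[X] := ∏ i, (Polynomial.X - C (X.fv Q i))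

variable {X}

theorem aeval_chiT (Q : X.Tup) :
    aeval X.f (chiT X Q) = ∏ i, (X.f - algebraMap K F (X.fv Q i)) := by
  simp [chiT]

theorem chiT_ne_zero (Q : X.Tup) : aeval X.f (chiT X Q) ≠ 0 := by
  rw [aeval_chiT]
  exact Finset.prod_ne_zero_iff.mpr fun i _ => f_sub_ne_zero _

theorem ord_chiT_inf (Q : X.Tup) :
    X.inf.ord (aeval X.f (chiT X Q)) = -((X.g : ℤ) * ((X.c : ℤ) + 1)) := by
  rw [aeval_chiT, ord_finsetProd _ _ _ fun i _ => f_sub_ne_zero _,
    Finset.sum_congr rfl fun i _ => ord_f_sub_inf _]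
  simp
  ring

theorem ord_chiT_of_ne {Q : X.Tup} {P : X.Pt} (h : ∀ i, valAt P.1 X.f ≠ X.fv Q i) :
    P.1.ord (aeval X.f (chiT X Q)) = 0 := by
  refine (ord_eq_zero_of_valAt (Coordinate.valAt_aeval_f P _).1 ?_).2
  rw [(Coordinate.valAt_aeval_f P _).2, chiT, eval_prod]
  exact Finset.prod_ne_zero_iff.mpr fun i _ => by simpa [sub_eq_zero] using h i

theorem ord_chiT_of_eq (Co : Coordinate X) {Q : X.Tup} (hV : X.V Q ≠ 0) {P : X.Pt} {i : Fin X.g}
    (h : valAt P.1 X.f = X.fv Q i) (hgood : Co.Δ.eval (valAt P.1 X.f) ≠ 0) :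
    P.1.ord (aeval X.f (chiT X Q)) = 1 := by
  rw [aeval_chiT, ord_finsetProd _ _ _ fun i _ => f_sub_ne_zero _,
    Finset.sum_eq_single_of_mem i (Finset.mem_univ i) fun j _ hj => ?_, ← h, Co.ord_f_sub hgood]
  refine (ord_eq_zero_of_valAt (sub_mem (Coordinate.f_mem_ring P) (P.1.algebraMap_mem' _)) ?_).2
  rw [sub_eq_add_neg, ← map_neg, valAt_add (Coordinate.f_mem_ring P) (P.1.algebraMap_mem' _),
    valAt_algebraMap, ← sub_eq_add_neg, sub_ne_zero, h]
  exact (Setup.V_ne_zero_iff.mp hV).ne hj.symm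

theorem divT_inf (Q : X.Tup) : X.divT Q X.inf = 0 := by
  rw [X.divT_apply, Finset.filter_false_of_mem fun i _ => (Q i).2]
  simp

theorem divT_of_ne {Q : X.Tup} {P : X.Pt} (h : ∀ i, Q i ≠ P) : X.divT Q P.1 = 0 := by
  rw [X.divT_apply, Finset.filter_false_of_mem fun i _ e => h i (Subtype.ext e)]
  simp

theorem divT_pt_self {Q : X.Tup} (hV : X.V Q ≠ 0) (i : Fin X.g) : X.divT Q (Q i).1 = 1 := by
  rw [X.divT_apply, Finset.card_eq_one.mpr ⟨i, Finset.ext fun j => by
    rw [Finset.mem_filter, Finset.mem_singleton]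
    exact ⟨fun h => Setup.fv_injective hV (Subtype.ext h.2), fun h => ⟨Finset.mem_univ _, h ▸ rfl⟩⟩⟩]
  rfl

theorem degree_divT (Q : X.Tup) : Divisor.degree (X.divT Q) = X.g := by
  rw [Setup.divT, map_sum, Finset.sum_congr rfl fun i _ => degree_single_one _]
  simp

variable (X)

/-- The divisor of the space of cleared sections with poles bounded by `n` on a tuple. -/
def fibD (Q : X.Tup) (n : ℕ) : Divisor K F :=
  n • X.divT Q + divOf K (aeval X.f (chiT X Q) ^ n)⁻¹

variable {X}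

theorem fibD_apply (Q : X.Tup) (n : ℕ) (v : Place K F) :
    fibD X Q n v = (n : ℤ) * (X.divT Q v - v.ord (aeval X.f (chiT X Q))) := by
  rw [fibD, Finsupp.add_apply, Finsupp.smul_apply, divOf_apply, v.ord_inv, MCurve.ord_pow]
  simp only [nsmul_eq_mul]
  ring

theorem ell_fibD (Q : X.Tup) (n : ℕ) : ell (fibD X Q n) = ell (n • X.divT Q) :=
  ell_add_divOf _ (inv_ne_zero (pow_ne_zero _ (chiT_ne_zero Q)))

theorem mem_fibD {Q : X.Tup} {n : ℕ} {a : F} : a ∈ riemannRochSpace (fibD X Q n) ↔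
    (aeval X.f (chiT X Q) ^ n)⁻¹ * a ∈ riemannRochSpace (n • X.divT Q) :=
  mem_space_divOf (inv_ne_zero (pow_ne_zero _ (chiT_ne_zero Q)))

theorem fibD_le (Co : Coordinate X) {Q : X.Tup} (hV : X.V Q ≠ 0) (hQ : Co.Good Q) (n : ℕ) :
    fibD X Q n ≤ Finsupp.single X.inf ((n * (X.g * (X.c + 1)) : ℕ) : ℤ) := by
  refine Finsupp.le_def.mpr fun v => ?_
  rw [fibD_apply]
  rcases eq_or_ne v X.inf with rfl | hv
  · rw [Finsupp.single_eq_same, divT_inf, ord_chiT_inf]
    push_cast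
    linarith
  rw [Finsupp.single_eq_of_ne hv]
  refine mul_nonpos_of_nonneg_of_nonpos (Int.natCast_nonneg n) ?_
  have h0 := ord_nonneg_of_mem' v (Coordinate.valAt_aeval_f (⟨v, hv⟩ : X.Pt) (chiT X Q)).1
  by_cases h : ∃ i, Q i = ⟨v, hv⟩
  · obtain ⟨i, hi⟩ := h
    obtain rfl : v = (Q i).1 := (congrArg Subtype.val hi).symm
    rw [divT_pt_self hV, ord_chiT_of_eq Co hV (P := Q i) (i := i) rfl (hQ i), sub_self]
  · rw [show X.divT Q v = 0 from divT_of_ne (P := ⟨v, hv⟩) (not_exists.mp h)]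
    omega

end Curve

variable {K : Type u} {F : Type v} [Field K] [Field F] [Algebra K F] [IsAlgClosed K]
  [∀ v : Place K F, v.FiniteResidue] [HasPrincipalDivisors K F] [Nonempty (Place K F)]
  {k G : Type*} [Field k] [Field G] [Algebra k G] [IsAlgClosed k]
  [∀ v : Place k G, v.FiniteResidue] [HasPrincipalDivisors k G] [Nonempty (Place k G)]
  {X : Setup K F} {Co : Coordinate X} {Y : Setup k G} {Cy : Coordinate Y}
  (Mo : Model X Co Y Cy)

theorem Model.coe_constA_mul (x : Mo.V) (a : Mo.A) :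
    ((Mo.constA x * a : Mo.A) : F) = (x : K) • (a : F) := by
  rw [Subring.coe_mul, Algebra.smul_def]; rfl

theorem Model.red_constA_mul (x : Mo.V) (a : Mo.A) :
    Mo.red (Mo.constA x * a) = Mo.res x • Mo.red a := by
  rw [map_mul, Mo.red_constA, Algebra.smul_def]

/-- An integral multiple by an element with nonzero reduction forces integrality. -/
theorem Model.mem_A_of_mul {N : ℕ} {a : F} (ha : a ∈ X.L N) {p : Mo.A} (hp : Mo.red p ≠ 0)
    (h : (p : F) * a ∈ Mo.A) : a ∈ Mo.A := by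
  rcases eq_or_ne a 0 with rfl | ha0
  · exact zero_mem _
  obtain ⟨x, hx, hxr⟩ := Mo.scale N a ha ha0
  have hx0 : x ≠ 0 := fun e => hxr (by
    rw [show (⟨x • a, hx⟩ : Mo.A) = 0 from Subtype.ext (by simp [e]), map_zero])
  by_cases hi : x⁻¹ ∈ Mo.V
  · have := (Mo.constA ⟨x⁻¹, hi⟩ * ⟨x • a, hx⟩ : Mo.A).2
    rwa [Mo.coe_constA_mul, smul_smul, inv_mul_cancel₀ hx0, one_smul] at this
  have hxV : x ∈ Mo.V := (Mo.V.mem_or_inv_mem x).resolve_right hi
  have hres : Mo.res ⟨x, hxV⟩ = 0 := by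
    by_contra hne
    obtain ⟨w, hw⟩ := (Mo.isUnit_of_res_ne_zero hne).exists_right_inv
    refine hi ?_
    rw [inv_eq_of_mul_eq_one_right (congrArg Subtype.val hw)]
    exact w.2
  exfalso
  have e : p * ⟨x • a, hx⟩ = Mo.constA ⟨x, hxV⟩ * ⟨(p : F) * a, h⟩ := Subtype.ext (by
    rw [Mo.coe_constA_mul, Subring.coe_mul]
    exact mul_smul_comm x (p : F) a)
  have h2 := congrArg Mo.red e
  rw [map_mul, Mo.red_constA_mul, hres, zero_smul, mul_eq_zero] at h2
  exact hxr (h2.resolve_left hp)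

/-- Functions with independent reductions are independent. -/
theorem Model.linearIndependent_of_red {ι : Type*} [Fintype ι] (a : ι → Mo.A)
    (h : LinearIndependent k fun i => Mo.red (a i)) :
    LinearIndependent K fun i => (a i : F) := by
  rw [Fintype.linearIndependent_iff] at h ⊢
  intro x hx
  by_contra hne
  push Not at hne
  obtain ⟨i₀, hi₀⟩ := hne
  obtain ⟨j, -, hj⟩ := Finset.exists_max_image Finset.univ (fun i => Mo.V.valuation (x i))
    ⟨i₀, Finset.mem_univ _⟩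
  have hj0 : x j ≠ 0 := fun e => by
    have := hj i₀ (Finset.mem_univ _)
    rw [e, map_zero, le_zero_iff, map_eq_zero] at this
    exact hi₀ this
  have hy : ∀ i, x i / x j ∈ Mo.V := fun i => by
    rw [← ValuationSubring.valuation_le_one_iff, map_div₀]
    exact div_le_one_of_le₀ (hj i (Finset.mem_univ _)) zero_le
  have h0 : (∑ i, Mo.constA ⟨x i / x j, hy i⟩ * a i) = 0 := Subtype.ext (by
    rw [AddSubmonoidClass.coe_finsetSum]
    simp only [Mo.coe_constA_mul, div_eq_inv_mul, mul_smul, ← Finset.smul_sum, hx, smul_zero]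
    rfl)
  have h1 := congrArg Mo.red h0
  rw [map_sum, map_zero] at h1
  simp only [Mo.red_constA_mul] at h1
  have h2 := h _ h1 j
  rw [show (⟨x j / x j, hy j⟩ : Mo.V) = 1 from Subtype.ext (div_self hj0), map_one] at h2
  exact one_ne_zero h2

/-- The reductions of the integral elements of a subspace. -/
def Model.redSub (W : Submodule K F) : Submodule k G where
  carrier := {b | ∃ a : Mo.A, (a : F) ∈ W ∧ Mo.red a = b}
  add_mem' := by
    rintro _ _ ⟨a, ha, rfl⟩ ⟨a', ha', rfl⟩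
    exact ⟨a + a', add_mem ha ha', map_add _ _ _⟩
  zero_mem' := ⟨0, zero_mem _, map_zero _⟩
  smul_mem' := by
    rintro c _ ⟨a, ha, rfl⟩
    obtain ⟨x, rfl⟩ := Mo.res_surjective c
    exact ⟨Mo.constA x * a, by rw [Mo.coe_constA_mul]; exact W.smul_mem _ ha,
      Mo.red_constA_mul x a⟩

/-- Reduction does not lower dimensions. -/
theorem Model.finrank_le_redSub (W : Submodule K F) {N : ℕ} (hW : W ≤ X.L N) :
    Module.finrank K W ≤ Module.finrank k (Mo.redSub W) := by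
  have hI : Mo.redSub W ≤ Y.L N := by
    rintro _ ⟨a, ha, rfl⟩; exact Mo.red_L N a (hW ha)
  haveI : Module.Finite K W := Submodule.finiteDimensional_of_le hW
  obtain ⟨P, hP, hsep⟩ := exists_separating Cy _ (Mo.redSub W) hI le_rfl
  by_contra hlt
  choose c hc using fun j => Mo.res_surjective (valAt (P j).1 Y.f)
  choose P' hP' hP'c using fun j => Mo.exists_lifts (hP j) (hc j)
  set φ : W →ₗ[K] (Fin (Module.finrank k (Mo.redSub W)) → K) :=
    LinearMap.pi fun j => (evalL X N (P' j)).comp (Submodule.inclusion hW)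
  obtain ⟨w, hw, hw0⟩ := Submodule.exists_mem_ne_zero_of_ne_bot
    (LinearMap.ker_ne_bot_of_finrank_lt (f := φ) (by rw [Module.finrank_fin_fun]; omega))
  obtain ⟨x, hx, hxr⟩ := Mo.scale N w (hW w.2) fun e => hw0 (Subtype.ext e)
  refine hxr (hsep _ ⟨⟨x • (w : F), hx⟩, W.smul_mem x w.2, rfl⟩ fun j => ?_)
  obtain ⟨y, hy, hy'⟩ := (hP' j).exists_valAt (hP j) ⟨x • (w : F), hx⟩
  have h0 : valAt (P' j).1 (w : F) = 0 := congrFun hw j
  rw [valAt_smul x (Setup.mem_ring (hW w.2) (P' j).2), h0, mul_zero] at hy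
  rw [← hy', show y = 0 from Subtype.ext hy.symm, map_zero]

theorem Model.finrank_le (W : Submodule K F) {N : ℕ} (hW : W ≤ X.L N) (Wb : Submodule k G)
    [Module.Finite k Wb] (hred : ∀ a : Mo.A, (a : F) ∈ W → Mo.red a ∈ Wb) :
    Module.finrank K W ≤ Module.finrank k Wb ∧
      (Module.finrank k Wb ≤ Module.finrank K W →
        ∀ b ∈ Wb, ∃ a : Mo.A, (a : F) ∈ W ∧ Mo.red a = b) := by
  have hle : Mo.redSub W ≤ Wb := by
    rintro _ ⟨a, ha, rfl⟩; exact hred a ha
  have h1 := Mo.finrank_le_redSub W hW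
  refine ⟨h1.trans (Submodule.finrank_mono hle), fun h b hb => ?_⟩
  rw [← Submodule.eq_of_le_of_finrank_le hle (h.trans h1)] at hb
  exact hb

/-- A tuple reduces to a tuple. -/
def Model.LiftsT (Q' : X.Tup) (Q : Y.Tup) : Prop :=
  ∃ σ : Fin Y.g → Fin X.g, Function.Bijective σ ∧ ∀ i, Mo.Lifts (Q' (σ i)) (Q i)

variable {Mo}

theorem Model.LiftsT.spec {Q' : X.Tup} {Q : Y.Tup} (h : Mo.LiftsT Q' Q) (hV : Y.V Q ≠ 0)
    (hQ : Cy.Good Q) : X.V Q' ≠ 0 ∧ Co.Good Q' := by
  obtain ⟨σ, hσ, hl⟩ := h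
  refine ⟨Setup.V_ne_zero_iff.mpr fun a b e => ?_, fun a => ?_⟩
  · obtain ⟨i, rfl⟩ := hσ.2 a
    obtain ⟨j, rfl⟩ := hσ.2 b
    obtain ⟨c, w, hc, -, hc', -⟩ := hl i
    obtain ⟨c₂, w₂, hc₂, -, hc₂', -⟩ := hl j
    have : c = c₂ := Subtype.ext (hc.symm.trans (e.trans hc₂))
    exact congrArg σ (Setup.V_ne_zero_iff.mp hV (hc'.symm.trans ((congrArg Mo.res this).trans hc₂')))
  · obtain ⟨i, rfl⟩ := hσ.2 a
    exact (hl i).good (hQ i)

theorem Model.LiftsT.exists_chi {Q' : X.Tup} {Q : Y.Tup} (h : Mo.LiftsT Q' Q) :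
    ∃ p : Mo.V[X], (Mo.evA p : F) = aeval X.f (chiT X Q') ∧
      Mo.red (Mo.evA p) = aeval Y.f (chiT Y Q) := by
  obtain ⟨σ, hσ, hl⟩ := h
  choose c w hc hw hc' hw' using hl
  refine ⟨∏ i, (Polynomial.X - C (c i)), ?_, ?_⟩
  · rw [Mo.coe_evA, chiT, ← hσ.prod_comp fun a => Polynomial.X - C (X.fv Q' a),
      Polynomial.map_prod]
    refine congrArg _ (Finset.prod_congr rfl fun i _ => ?_)
    rw [Polynomial.map_sub, map_X, map_C, Setup.fv, hc i]
    rfl
  · rw [Mo.red_evA, chiT, Polynomial.map_prod]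
    refine congrArg _ (Finset.prod_congr rfl fun i _ => ?_)
    rw [Polynomial.map_sub, map_X, map_C, Setup.fv, hc' i]

/-- Cleared sections reduce to cleared sections. -/
theorem Model.LiftsT.red_mem_fibD {Q' : X.Tup} {Q : Y.Tup} (h : Mo.LiftsT Q' Q) (hV : Y.V Q ≠ 0)
    (hQ : Cy.Good Q) {n : ℕ} (a : Mo.A) (ha : (a : F) ∈ riemannRochSpace (fibD X Q' n)) :
    Mo.red a ∈ riemannRochSpace (fibD Y Q n) := by
  obtain ⟨hV', hQ'⟩ := h.spec hV hQ
  obtain ⟨σ, hσ, hl⟩ := h
  rw [mem_space_iff]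
  by_cases h0 : Mo.red a = 0
  · exact Or.inl h0
  refine Or.inr fun v => ?_
  have hr := Mo.red_L _ a (space_mono (fibD_le Co hV' hQ' n) ha)
  rw [fibD_apply]
  rcases eq_or_ne v Y.inf with rfl | hv
  · rw [divT_inf, ord_chiT_inf, Mo.g_eq, Mo.c_eq]
    have := ((Setup.mem_L.mp hr).resolve_left h0).2
    push_cast at this
    linarith
  have hge := ((Setup.mem_L.mp hr).resolve_left h0).1 v hv
  by_cases hex : ∃ i, valAt v Y.f = Y.fv Q i
  swap
  · rw [show Y.divT Q v = 0 from divT_of_ne (P := ⟨v, hv⟩) fun i e => hex ⟨i, by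
      rw [Setup.fv, e]⟩, ord_chiT_of_ne (P := ⟨v, hv⟩) (not_exists.mp hex), sub_self, mul_zero,
      neg_zero]
    exact hge
  obtain ⟨i, hi⟩ := hex
  have hgood : Cy.Δ.eval (valAt v Y.f) ≠ 0 := by rw [hi]; exact hQ i
  rw [ord_chiT_of_eq Cy hV (P := ⟨v, hv⟩) hi hgood]
  by_cases hPi : Q i = ⟨v, hv⟩
  · rw [show v = (Q i).1 from (congrArg Subtype.val hPi).symm, divT_pt_self hV, sub_self, mul_zero,
      neg_zero, congrArg Subtype.val hPi]
    exact hge
  have hne : ∀ j, Q j ≠ ⟨v, hv⟩ := fun j e => hPi (by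
    rw [show i = j from Setup.V_ne_zero_iff.mp hV (hi.symm.trans (by rw [Setup.fv, e]))]; exact e)
  rw [show Y.divT Q v = 0 from divT_of_ne (P := ⟨v, hv⟩) hne]
  obtain ⟨c, w, hc, -, hc', -⟩ := hl i
  obtain ⟨P', hP', hP'c⟩ := Mo.exists_lifts (P := ⟨v, hv⟩) hgood
    (show Mo.res c = valAt v Y.f from hc'.trans hi.symm)
  have hgood' := hP'.good hgood
  have hne' : ∀ b, Q' b ≠ P' := fun b e => by
    obtain ⟨j, rfl⟩ := hσ.2 b
    exact hne j ((e ▸ hl j : Mo.Lifts P' (Q j)).unique hP' (hQ j))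
  have hord : (a : F) = 0 ∨ ((n : ℕ) : ℤ) ≤ P'.1.ord (a : F) := by
    refine (mem_space_iff.mp ha).imp id fun h' => ?_
    have h3 := h' P'.1
    rw [fibD_apply, divT_of_ne hne', ord_chiT_of_eq Co hV'
      (show valAt P'.1 X.f = X.fv Q' (σ i) from hP'c.trans hc.symm) hgood'] at h3
    linarith
  have := (hP'.le_ord_red hgood hord).resolve_left h0
  linarith

/-- The dimension of the sections does not drop. -/
theorem Model.LiftsT.ell_le {Q' : X.Tup} {Q : Y.Tup} (h : Mo.LiftsT Q' Q) (hV : Y.V Q ≠ 0)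
    (hQ : Cy.Good Q) (n : ℕ) : ell (n • X.divT Q') ≤ ell (n • Y.divT Q) := by
  obtain ⟨hV', hQ'⟩ := h.spec hV hQ
  rw [← ell_fibD, ← ell_fibD]
  exact (Mo.finrank_le _ (space_mono (fibD_le Co hV' hQ' n)) _
    fun a ha => h.red_mem_fibD hV hQ a ha).1

/-- A lift of the multiplier. -/
theorem Model.LiftsT.exists_lift_e {Q' : X.Tup} {Q : Y.Tup} (h : Mo.LiftsT Q' Q) (hV : Y.V Q ≠ 0)
    (hQ : Cy.Good Q) {n M : ℕ} (hM : n * X.g + X.c ≤ M) {e : G}
    (he : e ∈ riemannRochSpace (Finsupp.single Y.inf (M : ℤ) - n • Y.divT Q))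
    (he' : Y.inf.ord e = -(M : ℤ)) (he0 : e ≠ 0) :
    ∃ e' : Mo.A, (e' : F) ∈ riemannRochSpace (Finsupp.single X.inf (M : ℤ) - n • X.divT Q') ∧
      X.inf.ord (e' : F) = -(M : ℤ) ∧ Mo.red e' = e := by
  obtain ⟨hV', -⟩ := h.spec hV hQ
  obtain ⟨σ, hσ, hl⟩ := h
  have hle : ∀ (Q' : X.Tup), Finsupp.single X.inf (M : ℤ) - n • X.divT Q' ≤
      Finsupp.single X.inf (M : ℤ) := fun Q' => sub_le_self _ (nsmul_nonneg (X.divT_nonneg Q') n)
  have hred : ∀ a : Mo.A,
      (a : F) ∈ riemannRochSpace (Finsupp.single X.inf (M : ℤ) - n • X.divT Q') →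
      Mo.red a ∈ riemannRochSpace (Finsupp.single Y.inf (M : ℤ) - n • Y.divT Q) := fun a ha => by
    rw [mem_space_iff]
    by_cases h0 : Mo.red a = 0
    · exact Or.inl h0
    refine Or.inr fun v => ?_
    have hr := (Setup.mem_L.mp (Mo.red_L M a (space_mono (hle Q') ha))).resolve_left h0
    rw [Finsupp.sub_apply, Finsupp.smul_apply, nsmul_eq_mul]
    rcases eq_or_ne v Y.inf with rfl | hv
    · rw [Finsupp.single_eq_same, divT_inf, mul_zero, sub_zero]; exact hr.2
    rw [Finsupp.single_eq_of_ne hv]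
    by_cases hex : ∃ i, Q i = ⟨v, hv⟩
    · obtain ⟨i, hi⟩ := hex
      obtain rfl : v = (Q i).1 := (congrArg Subtype.val hi).symm
      rw [divT_pt_self hV]
      have hord : (a : F) = 0 ∨ (n : ℤ) ≤ (Q' (σ i)).1.ord (a : F) := by
        refine (mem_space_iff.mp ha).imp id fun h' => ?_
        have h3 := h' (Q' (σ i)).1
        rw [Finsupp.sub_apply, Finsupp.smul_apply, Finsupp.single_eq_of_ne (Q' (σ i)).2,
          divT_pt_self hV', nsmul_eq_mul] at h3
        linarith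
      have := ((hl i).le_ord_red (hQ i) hord).resolve_left h0
      linarith
    · rw [show Y.divT Q v = 0 from divT_of_ne (P := ⟨v, hv⟩) (not_exists.mp hex)]
      simpa using hr.1 v hv
  have hd : ∀ (g c : ℕ), g = X.g → c = X.c →
      (c : ℤ) ≤ (M : ℤ) - (n : ℤ) * g := fun g c hg hc => by
    subst hg hc; push_cast [← Int.ofNat_le] at hM; linarith
  have e1 := X.hR.eq (Finsupp.single X.inf (M : ℤ) - n • X.divT Q') (by
    rw [map_sub, map_nsmul, X.degree_L, degree_divT, nsmul_eq_mul]; exact hd _ _ rfl rfl)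
  have e2 := Y.hR.eq (Finsupp.single Y.inf (M : ℤ) - n • Y.divT Q) (by
    rw [map_sub, map_nsmul, Y.degree_L, degree_divT, nsmul_eq_mul]; exact hd _ _ Mo.g_eq Mo.c_eq)
  rw [map_sub, map_nsmul, X.degree_L, degree_divT] at e1
  rw [map_sub, map_nsmul, Y.degree_L, degree_divT, Mo.g_eq] at e2
  obtain ⟨e', he'₁, he'₂⟩ := (Mo.finrank_le _ (space_mono (hle Q')) _ hred).2
    (by simp only [ell] at *; omega) e he
  refine ⟨e', he'₁, ?_, he'₂⟩
  have h1 := space_mono (hle Q') he'₁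
  rcases Setup.mem_L.mp h1 with e0 | ⟨h2, h3⟩
  · exact absurd (by rw [← he'₂, show e' = 0 from Subtype.ext e0, map_zero]) he0
  refine le_antisymm ?_ h3
  by_contra hlt
  obtain ⟨M', rfl⟩ : ∃ M', M = M' + 1 := ⟨M - 1, by
    have : M ≠ 0 := fun e => by
      subst e
      have hg : n * X.g = 0 := by omega
      have := (mem_space_iff.mp he'₁).resolve_left
        (fun e0 => he0 (by rw [← he'₂, show e' = 0 from Subtype.ext e0, map_zero]))
      have hnn : ∀ v : Place K F, 0 ≤ v.ord (e' : F) := fun v => by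
        rcases eq_or_ne v X.inf with rfl | hv
        · simpa using h3
        · exact h2 v hv
      obtain ⟨a, ha⟩ := exists_const_of_mem_zero (mem_space_iff.mpr (Or.inr fun v => by
        simpa using hnn v) : (e' : F) ∈ riemannRochSpace (0 : Divisor K F))
      rw [← ha, MCurve.ord_algebraMap] at hlt
      simp at hlt
    omega⟩
  have h4 := Mo.red_L M' e' (Setup.mem_L.mpr (Or.inr ⟨h2, by push_cast at hlt ⊢; omega⟩))
  rw [he'₂] at h4
  have := ((Setup.mem_L.mp h4).resolve_left he0).2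
  rw [he'] at this
  push_cast at this
  omega

/-- Sections times the multiplier lift. -/
theorem Model.LiftsT.exists_lift_section {Q' : X.Tup} {Q : Y.Tup} (h : Mo.LiftsT Q' Q)
    (hV : Y.V Q ≠ 0) (hQ : Cy.Good Q) {n M : ℕ} (hell : ell (n • Y.divT Q) ≤ ell (n • X.divT Q'))
    (e' : Mo.A) (he' : (e' : F) ∈ riemannRochSpace (Finsupp.single X.inf (M : ℤ) - n • X.divT Q'))
    (he0 : Mo.red e' ≠ 0) {b : G} (hb : b ∈ riemannRochSpace (n • Y.divT Q)) :
    ∃ u : Mo.A, (u : F) / (e' : F) ∈ riemannRochSpace (n • X.divT Q') ∧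
      Mo.red u = b * Mo.red e' := by
  obtain ⟨hV', hQ'⟩ := h.spec hV hQ
  obtain ⟨p, hp, hpr⟩ := h.exists_chi
  have he0' : (e' : F) ≠ 0 := fun e => he0 (by rw [show e' = 0 from Subtype.ext e, map_zero])
  have hb' : aeval Y.f (chiT Y Q) ^ n * b ∈ riemannRochSpace (fibD Y Q n) := by
    rw [mem_fibD, inv_mul_cancel_left₀ (pow_ne_zero _ (chiT_ne_zero Q))]; exact hb
  obtain ⟨s, hs, hsr⟩ := (Mo.finrank_le _ (space_mono (fibD_le Co hV' hQ' n)) _
    fun a ha => h.red_mem_fibD hV hQ a ha).2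
    (by show ell (fibD Y Q n) ≤ ell (fibD X Q' n); rw [ell_fibD, ell_fibD]; exact hell) _ hb'
  set u := (e' : F) * ((aeval X.f (chiT X Q') ^ n)⁻¹ * (s : F)) with hu
  have huL : u ∈ X.L M := by
    have := mul_mem_space he' (mem_fibD.mp hs)
    rwa [sub_add_cancel] at this
  have hmul : ((Mo.evA (p ^ n) : Mo.A) : F) * u = ((e' * s : Mo.A) : F) := by
    rw [map_pow, SubmonoidClass.coe_pow, hp, Subring.coe_mul, hu, mul_left_comm,
      mul_inv_cancel_left₀ (pow_ne_zero _ (chiT_ne_zero Q'))]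
  have hpn : Mo.red (Mo.evA (p ^ n)) ≠ 0 := by
    rw [map_pow, map_pow, hpr]; exact pow_ne_zero _ (chiT_ne_zero Q)
  have huA : u ∈ Mo.A := Mo.mem_A_of_mul huL hpn (by rw [hmul]; exact (e' * s).2)
  refine ⟨⟨u, huA⟩, ?_, mul_left_cancel₀ hpn ?_⟩
  · show u / (e' : F) ∈ _
    rw [hu, mul_div_cancel_left₀ _ he0']
    exact mem_fibD.mp hs
  · rw [← map_mul, show Mo.evA (p ^ n) * ⟨u, huA⟩ = e' * s from Subtype.ext hmul, map_mul, hsr,
      map_pow, map_pow, hpr]
    ring

end Fermat.Agent.MCurve.T27
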